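/-
P-DS (S48, Deligne–Serre), block (5b) (helper10): bounded order of semisimple subgroups of
`GL₂(k)` having few traces on a large subset (Deligne–Serre, Prop. 7.2, in the form `η < 1/4`).

Mathlib only.  No classification of the subgroups of `GL₂` is used: for a finite subgroup `G` of
`GL₂(k)` acting semisimply on `k²` (`char k ≠ 2`) the trace form is nondegenerate on the linear
span `A` of `G`, so that `g ↦ (tr (g gᵢ))ᵢ` is injective on `G` for a basis `g₁, …, g_d` of `A`
contained in `G`.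
-/
import Mathlib

set_option autoImplicit false

namespace Fermat.Agent.H10

open Matrix

section linalg

variable {k : Type*} [Field k]

/-- Semisimplicity of a set of `2 × 2` matrices acting on `k²`: every common eigenvector has a
complementary common eigenvector. -/
def DSSemisimple (S : Set (Matrix (Fin 2) (Fin 2) k)) : Prop :=
  ∀ v : Fin 2 → k, v ≠ 0 → (∀ g ∈ S, ∃ c : k, g.mulVec v = c • v) →
    ∃ w : Fin 2 → k, (∀ a b : k, a • v + b • w = 0 → a = 0 ∧ b = 0) ∧
      ∀ g ∈ S, ∃ c : k, g.mulVec w = c • w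

/-- Cayley–Hamilton for `2 × 2` matrices. -/
theorem ds_cayley_hamilton (a : Matrix (Fin 2) (Fin 2) k) :
    a * a = a.trace • a - a.det • (1 : Matrix (Fin 2) (Fin 2) k) := by
  ext i j
  fin_cases i <;> fin_cases j <;>
    simp [Matrix.mul_apply, Fin.sum_univ_two, Matrix.trace_fin_two, Matrix.det_fin_two] <;> ring

theorem ds_sq_eq_zero (h2 : (2 : k) ≠ 0) (a : Matrix (Fin 2) (Fin 2) k) (h1 : a.trace = 0)
    (h3 : (a * a).trace = 0) : a * a = 0 := by
  have hCH := ds_cayley_hamilton a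
  rw [h1, zero_smul, zero_sub] at hCH
  have hdet : a.det = 0 := by
    rw [hCH] at h3
    simp only [Matrix.trace_neg, Matrix.trace_smul, Matrix.trace_one, Fintype.card_fin,
      smul_eq_mul, neg_eq_zero, mul_eq_zero] at h3
    rcases h3 with h3 | h3
    · exact h3
    · exact absurd (by exact_mod_cast h3) h2
  rw [hCH, hdet, zero_smul, neg_zero]

theorem ds_collinear_or (v w : Fin 2 → k) (hv : v ≠ 0) :
    (∃ c : k, w = c • v) ∨ v 0 * w 1 - v 1 * w 0 ≠ 0 := by
  by_cases hD : v 0 * w 1 - v 1 * w 0 = 0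
  · left
    by_cases h0 : v 0 = 0
    · have h1 : v 1 ≠ 0 := by
        intro h1
        apply hv
        funext i
        fin_cases i
        · exact h0
        · exact h1
      refine ⟨w 1 / v 1, ?_⟩
      funext i
      fin_cases i
      · simp only [Fin.zero_eta, Fin.isValue, Pi.smul_apply, smul_eq_mul]
        rw [h0, mul_zero]
        rw [h0, zero_mul, zero_sub, neg_eq_zero, mul_eq_zero] at hD
        exact hD.resolve_left h1
      · simp only [Fin.mk_one, Fin.isValue, Pi.smul_apply, smul_eq_mul]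
        field_simp
    · refine ⟨w 0 / v 0, ?_⟩
      funext i
      fin_cases i
      · simp only [Fin.zero_eta, Fin.isValue, Pi.smul_apply, smul_eq_mul]
        field_simp
      · simp only [Fin.mk_one, Fin.isValue, Pi.smul_apply, smul_eq_mul]
        field_simp
        linear_combination hD
  · right
    exact hD

theorem ds_eq_zero_of_mulVec (a : Matrix (Fin 2) (Fin 2) k) (v w : Fin 2 → k)
    (hD : v 0 * w 1 - v 1 * w 0 ≠ 0) (hv : a.mulVec v = 0) (hw : a.mulVec w = 0) : a = 0 := by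
  have hv0 := congrFun hv 0
  have hv1 := congrFun hv 1
  have hw0 := congrFun hw 0
  have hw1 := congrFun hw 1
  simp only [Matrix.mulVec, dotProduct, Fin.sum_univ_two, Pi.zero_apply] at hv0 hv1 hw0 hw1
  ext i j
  fin_cases i <;> fin_cases j
  · show a 0 0 = 0
    have : a 0 0 * (v 0 * w 1 - v 1 * w 0) = 0 := by linear_combination w 1 * hv0 - v 1 * hw0
    exact (mul_eq_zero.mp this).resolve_right hD
  · show a 0 1 = 0
    have : a 0 1 * (v 0 * w 1 - v 1 * w 0) = 0 := by linear_combination v 0 * hw0 - w 0 * hv0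
    exact (mul_eq_zero.mp this).resolve_right hD
  · show a 1 0 = 0
    have : a 1 0 * (v 0 * w 1 - v 1 * w 0) = 0 := by linear_combination w 1 * hv1 - v 1 * hw1
    exact (mul_eq_zero.mp this).resolve_right hD
  · show a 1 1 = 0
    have : a 1 1 * (v 0 * w 1 - v 1 * w 0) = 0 := by linear_combination v 0 * hw1 - w 0 * hv1
    exact (mul_eq_zero.mp this).resolve_right hD

/-- A nonzero square-zero `2 × 2` matrix: its kernel and image are one common line. -/
theorem ds_nilpotent_line (a : Matrix (Fin 2) (Fin 2) k) (ha : a ≠ 0) (hsq : a * a = 0) :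
    ∃ v : Fin 2 → k, v ≠ 0 ∧ a.mulVec v = 0 ∧
      (∀ w : Fin 2 → k, a.mulVec w = 0 → ∃ c : k, w = c • v) ∧
      ∀ u : Fin 2 → k, ∃ c : k, a.mulVec u = c • v := by
  have hu : ∃ u : Fin 2 → k, a.mulVec u ≠ 0 := by
    by_contra hcon
    push Not at hcon
    apply ha
    ext i j
    have := congrFun (hcon (Pi.single j 1)) i
    simpa using this
  obtain ⟨u, hu⟩ := hu
  have hav : a.mulVec (a.mulVec u) = 0 := by
    rw [Matrix.mulVec_mulVec, hsq, Matrix.zero_mulVec]
  have hker : ∀ w : Fin 2 → k, a.mulVec w = 0 → ∃ c : k, w = c • a.mulVec u := by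
    intro w hw
    rcases ds_collinear_or (a.mulVec u) w hu with h | h
    · exact h
    · exact absurd (ds_eq_zero_of_mulVec a _ _ h hav hw) ha
  refine ⟨a.mulVec u, hu, hav, hker, fun u' => hker _ ?_⟩
  rw [Matrix.mulVec_mulVec, hsq, Matrix.zero_mulVec]

end linalg

section radical

variable {k : Type*} [Field k]

/-- The set of matrices underlying a subgroup of `GL₂(k)`. -/
def dsMatSet (G : Subgroup (GL (Fin 2) k)) : Set (Matrix (Fin 2) (Fin 2) k) :=
  {m | ∃ g ∈ G, ((g : GL (Fin 2) k) : Matrix (Fin 2) (Fin 2) k) = m}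

theorem ds_mem_matSet {G : Subgroup (GL (Fin 2) k)} {g : GL (Fin 2) k} (hg : g ∈ G) :
    ((g : GL (Fin 2) k) : Matrix (Fin 2) (Fin 2) k) ∈ dsMatSet G := ⟨g, hg, rfl⟩

/-- The linear span of a subgroup of `GL₂(k)` is stable under left multiplication by the
subgroup. -/
theorem ds_span_mul_left (G : Subgroup (GL (Fin 2) k)) {g : GL (Fin 2) k} (hg : g ∈ G)
    {a : Matrix (Fin 2) (Fin 2) k} (ha : a ∈ Submodule.span k (dsMatSet G)) :
    (g : Matrix (Fin 2) (Fin 2) k) * a ∈ Submodule.span k (dsMatSet G) := by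
  induction ha using Submodule.span_induction with
  | mem x hx =>
    obtain ⟨h, hh, rfl⟩ := hx
    apply Submodule.subset_span
    exact ⟨g * h, G.mul_mem hg hh, by simp⟩
  | zero => simp
  | add x y _ _ hx hy =>
    rw [mul_add]
    exact Submodule.add_mem _ hx hy
  | smul c x _ hx =>
    rw [Matrix.mul_smul]
    exact Submodule.smul_mem _ c hx

/-- Linearity: a trace condition against the group extends to the span. -/
theorem ds_trace_span (G : Subgroup (GL (Fin 2) k)) (a : Matrix (Fin 2) (Fin 2) k)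
    (h : ∀ g ∈ G, (a * (g : Matrix (Fin 2) (Fin 2) k)).trace = 0)
    {b : Matrix (Fin 2) (Fin 2) k} (hb : b ∈ Submodule.span k (dsMatSet G)) :
    (a * b).trace = 0 := by
  induction hb using Submodule.span_induction with
  | mem x hx =>
    obtain ⟨g, hg, rfl⟩ := hx
    exact h g hg
  | zero => simp
  | add x y _ _ hx hy =>
    rw [mul_add, Matrix.trace_add, hx, hy, add_zero]
  | smul c x _ hx =>
    rw [Matrix.mul_smul, Matrix.trace_smul, hx, smul_zero]

/-- A common eigenvector of the group is an eigenvector of every element of the span. -/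
theorem ds_eigen_span (G : Subgroup (GL (Fin 2) k)) (w : Fin 2 → k)
    (h : ∀ m ∈ dsMatSet G, ∃ c : k, m.mulVec w = c • w)
    {b : Matrix (Fin 2) (Fin 2) k} (hb : b ∈ Submodule.span k (dsMatSet G)) :
    ∃ c : k, b.mulVec w = c • w := by
  induction hb using Submodule.span_induction with
  | mem x hx => exact h x hx
  | zero => exact ⟨0, by simp⟩
  | add x y _ _ hx hy =>
    obtain ⟨c, hc⟩ := hx
    obtain ⟨d, hd⟩ := hy
    exact ⟨c + d, by rw [Matrix.add_mulVec, hc, hd, add_smul]⟩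
  | smul c x _ hx =>
    obtain ⟨d, hd⟩ := hx
    exact ⟨c * d, by rw [Matrix.smul_mulVec, hd, smul_smul]⟩

/-- **Nondegeneracy of the trace form** on the span of a semisimple subgroup of `GL₂(k)`,
`char k ≠ 2`. -/
theorem ds_trace_nondegenerate (h2 : (2 : k) ≠ 0) (G : Subgroup (GL (Fin 2) k))
    (hss : DSSemisimple (dsMatSet G)) (a : Matrix (Fin 2) (Fin 2) k)
    (haA : a ∈ Submodule.span k (dsMatSet G))
    (hrad : ∀ g ∈ G, (a * (g : Matrix (Fin 2) (Fin 2) k)).trace = 0) : a = 0 := by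
  by_contra ha
  -- `a² = 0`
  have htr : a.trace = 0 := by
    have := hrad 1 G.one_mem
    simpa using this
  have hsq : a * a = 0 := ds_sq_eq_zero h2 a htr (ds_trace_span G a hrad haA)
  -- `a g a = 0` for `g ∈ G`
  have haga : ∀ g ∈ G, a * (g : Matrix (Fin 2) (Fin 2) k) * a = 0 := by
    intro g hg
    have hgaA : (g : Matrix (Fin 2) (Fin 2) k) * a ∈ Submodule.span k (dsMatSet G) :=
      ds_span_mul_left G hg haA
    have hgarad : ∀ h ∈ G, ((g : Matrix (Fin 2) (Fin 2) k) * a *
        (h : Matrix (Fin 2) (Fin 2) k)).trace = 0 := by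
      intro h hh
      rw [Matrix.mul_assoc, Matrix.trace_mul_comm, Matrix.mul_assoc]
      have := hrad (h * g) (G.mul_mem hh hg)
      simpa using this
    have htr' : ((g : Matrix (Fin 2) (Fin 2) k) * a).trace = 0 := by
      have := hgarad 1 G.one_mem
      simpa using this
    have hsq' := ds_sq_eq_zero h2 _ htr' (ds_trace_span G _ hgarad hgaA)
    have hinv : ((g⁻¹ : GL (Fin 2) k) : Matrix (Fin 2) (Fin 2) k) *
        (g : Matrix (Fin 2) (Fin 2) k) = 1 := by
      rw [← Units.val_mul, inv_mul_cancel, Units.val_one]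
    have hre : ((g⁻¹ : GL (Fin 2) k) : Matrix (Fin 2) (Fin 2) k) *
        ((g : Matrix (Fin 2) (Fin 2) k) * a * ((g : Matrix (Fin 2) (Fin 2) k) * a)) =
        (((g⁻¹ : GL (Fin 2) k) : Matrix (Fin 2) (Fin 2) k) * (g : Matrix (Fin 2) (Fin 2) k)) *
          (a * (g : Matrix (Fin 2) (Fin 2) k) * a) := by
      simp only [Matrix.mul_assoc]
    rw [hsq', Matrix.mul_zero, hinv, Matrix.one_mul] at hre
    exact hre.symm
  obtain ⟨v, hv0, hav, hker, him⟩ := ds_nilpotent_line a ha hsq
  -- `v = a u`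
  obtain ⟨u, hu⟩ : ∃ u : Fin 2 → k, a.mulVec u ≠ 0 := by
    by_contra hcon
    push Not at hcon
    apply ha
    ext i j
    have := congrFun (hcon (Pi.single j 1)) i
    simpa using this
  obtain ⟨c₀, hc₀⟩ := him u
  have hc₀0 : c₀ ≠ 0 := by
    intro h
    apply hu
    rw [hc₀, h, zero_smul]
  -- `G` stabilises the line `k v`
  have hstab : ∀ m ∈ dsMatSet G, ∃ c : k, m.mulVec v = c • v := by
    rintro m ⟨g, hg, rfl⟩
    apply hker
    have h1 : a.mulVec ((g : Matrix (Fin 2) (Fin 2) k).mulVec (a.mulVec u)) = 0 := by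
      rw [Matrix.mulVec_mulVec, Matrix.mulVec_mulVec, haga g hg, Matrix.zero_mulVec]
    rw [hc₀, Matrix.mulVec_smul, Matrix.mulVec_smul] at h1
    exact (smul_eq_zero.mp h1).resolve_left hc₀0
  obtain ⟨w, hind, hw⟩ := hss v hv0 hstab
  obtain ⟨c, hc⟩ := ds_eigen_span G w hw haA
  obtain ⟨d, hd⟩ := him w
  have hcd : (-d) • v + c • w = 0 := by
    rw [neg_smul, ← hc, hd, neg_add_cancel]
  obtain ⟨-, hc0⟩ := hind _ _ hcd
  have haw : a.mulVec w = 0 := by rw [hc, hc0, zero_smul]
  -- `v, w` independent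
  rcases ds_collinear_or v w hv0 with ⟨e, he⟩ | hD
  · have : e • v + (-1 : k) • w = 0 := by
      rw [he]
      simp
    have := (hind _ _ this).2
    exact absurd this (by simp)
  · exact ha (ds_eq_zero_of_mulVec a v w hD hav haw)

end radical

section counting

variable {k : Type*} [Field k]

/-- Injectivity of `g ↦ (tr (g x))_{x ∈ b}` on `G`, for `b` spanning the span of `G`. -/
theorem ds_trace_injOn (h2 : (2 : k) ≠ 0) (G : Subgroup (GL (Fin 2) k))
    (hss : DSSemisimple (dsMatSet G)) (b : Set (Matrix (Fin 2) (Fin 2) k))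
    (hbspan : Submodule.span k b = Submodule.span k (dsMatSet G))
    {g g' : GL (Fin 2) k} (hg : g ∈ G) (hg' : g' ∈ G)
    (h : ∀ x ∈ b, ((g : Matrix (Fin 2) (Fin 2) k) * x).trace =
      ((g' : Matrix (Fin 2) (Fin 2) k) * x).trace) : g = g' := by
  have hA : (g : Matrix (Fin 2) (Fin 2) k) - (g' : Matrix (Fin 2) (Fin 2) k) ∈
      Submodule.span k (dsMatSet G) :=
    Submodule.sub_mem _ (Submodule.subset_span (ds_mem_matSet hg))
      (Submodule.subset_span (ds_mem_matSet hg'))
  have hspan : ∀ y ∈ Submodule.span k b,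
      (((g : Matrix (Fin 2) (Fin 2) k) - (g' : Matrix (Fin 2) (Fin 2) k)) * y).trace = 0 := by
    intro y hy
    induction hy using Submodule.span_induction with
    | mem x hx => rw [sub_mul, Matrix.trace_sub, h x hx, sub_self]
    | zero => simp
    | add x y _ _ hx hy => rw [mul_add, Matrix.trace_add, hx, hy, add_zero]
    | smul c x _ hx => rw [Matrix.mul_smul, Matrix.trace_smul, hx, smul_zero]
  have hrad : ∀ h ∈ G, (((g : Matrix (Fin 2) (Fin 2) k) - (g' : Matrix (Fin 2) (Fin 2) k)) *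
      (h : Matrix (Fin 2) (Fin 2) k)).trace = 0 := by
    intro h hh
    apply hspan
    rw [hbspan]
    exact Submodule.subset_span (ds_mem_matSet hh)
  have := ds_trace_nondegenerate h2 G hss _ hA hrad
  exact Units.ext (sub_eq_zero.mp this)

/-- **Deligne–Serre, Prop. 7.2** (form `η < 1/4`, classification-free): a finite subgroup `G` of
`GL₂(k)`, `char k ≠ 2`, acting semisimply on `k²`, such that the traces of the elements of a
subset `H` of `G` with `|H| ≥ (1 - η) |G|` lie in a finite set `T`, satisfies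
`(1 - 4 η) |G| ≤ max(|T|, 1) ^ 4`. -/
theorem ds_bound (h2 : (2 : k) ≠ 0) (G : Subgroup (GL (Fin 2) k)) [Finite G]
    (hss : DSSemisimple (dsMatSet G)) (T : Finset k) (H : Finset (GL (Fin 2) k))
    (hHG : ∀ h ∈ H, h ∈ G)
    (hHT : ∀ h ∈ H, ((h : GL (Fin 2) k) : Matrix (Fin 2) (Fin 2) k).trace ∈ T)
    (η : ℝ) (hH : (1 - η) * (Nat.card G : ℝ) ≤ (H.card : ℝ)) :
    (1 - 4 * η) * (Nat.card G : ℝ) ≤ ((max T.card 1 : ℕ) : ℝ) ^ 4 := by
  classical
  have hGfin : (G : Set (GL (Fin 2) k)).Finite := Set.toFinite _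
  set Gf : Finset (GL (Fin 2) k) := hGfin.toFinset with hGfdef
  have hGf : ∀ g, g ∈ Gf ↔ g ∈ G := fun g => by simp [hGfdef]
  have hcardG : Nat.card G = Gf.card := by
    show Nat.card (G : Set (GL (Fin 2) k)) = _
    rw [Nat.card_coe_set_eq, Set.ncard_eq_toFinset_card _ hGfin]
  -- a basis of the span contained in `G`
  obtain ⟨b, hbS, hbspan, hbli⟩ := exists_linearIndependent k (dsMatSet G)
  have hbfin : b.Finite := hbli.setFinite
  set bf : Finset (Matrix (Fin 2) (Fin 2) k) := hbfin.toFinset with hbfdef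
  have hbf : ∀ x, x ∈ bf ↔ x ∈ b := fun x => by simp [hbfdef]
  have hbcard : bf.card ≤ 4 := by
    have hli : LinearIndependent k (fun x : bf => (x : Matrix (Fin 2) (Fin 2) k)) := by
      have hcoe : (bf : Set (Matrix (Fin 2) (Fin 2) k)) = b := by
        ext x
        simp [hbf]
      rw [← hcoe] at hbli
      exact hbli
    have := hli.finset_card_le_finrank
    have h4 : Module.finrank k (Matrix (Fin 2) (Fin 2) k) = 4 := by
      rw [Module.finrank_matrix]
      simp
    omega
  have hrep : ∀ x ∈ b, ∃ g : GL (Fin 2) k, g ∈ G ∧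
      ((g : GL (Fin 2) k) : Matrix (Fin 2) (Fin 2) k) = x := fun x hx => hbS hx
  choose! r hrG hrx using hrep
  -- the good set
  set H' : Finset (GL (Fin 2) k) := Gf.filter (fun g => ∀ x ∈ bf, g * r x ∈ H) with hH'def
  have hcompl : (Gf \ H').card ≤ bf.card * (Gf \ H).card := by
    have hsub : Gf \ H' ⊆ bf.biUnion (fun x => (Gf \ H).image (fun g => g * (r x)⁻¹)) := by
      intro g hg
      rw [Finset.mem_sdiff] at hg
      obtain ⟨hgG, hgH'⟩ := hg
      rw [hH'def, Finset.mem_filter] at hgH'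
      push Not at hgH'
      obtain ⟨x, hx, hxH⟩ := hgH' hgG
      rw [Finset.mem_biUnion]
      refine ⟨x, hx, ?_⟩
      rw [Finset.mem_image]
      refine ⟨g * r x, ?_, by group⟩
      rw [Finset.mem_sdiff]
      refine ⟨?_, hxH⟩
      rw [hGf]
      exact G.mul_mem ((hGf g).mp hgG) (hrG x ((hbf x).mp hx))
    calc (Gf \ H').card
        ≤ (bf.biUnion (fun x => (Gf \ H).image (fun g => g * (r x)⁻¹))).card :=
          Finset.card_le_card hsub
      _ ≤ ∑ x ∈ bf, ((Gf \ H).image (fun g => g * (r x)⁻¹)).card := Finset.card_biUnion_le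
      _ ≤ ∑ _x ∈ bf, (Gf \ H).card := Finset.sum_le_sum (fun x _ => Finset.card_image_le)
      _ = bf.card * (Gf \ H).card := by simp
  have hinj : H'.card ≤ T.card ^ bf.card := by
    let Φ : GL (Fin 2) k → (bf → k) := fun g x =>
      (((g : GL (Fin 2) k) : Matrix (Fin 2) (Fin 2) k) * (x : Matrix (Fin 2) (Fin 2) k)).trace
    have hmaps : ∀ g ∈ H', Φ g ∈ Fintype.piFinset (fun _ : bf => T) := by
      intro g hg
      rw [hH'def, Finset.mem_filter] at hg
      rw [Fintype.mem_piFinset]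
      intro x
      have h1 := hg.2 x x.2
      have h3 := hHT _ h1
      rw [Units.val_mul, hrx x ((hbf x).mp x.2)] at h3
      exact h3
    have hinjOn : Set.InjOn Φ (H' : Set (GL (Fin 2) k)) := by
      intro g hg g' hg' hΦ
      rw [Finset.mem_coe, hH'def, Finset.mem_filter] at hg hg'
      apply ds_trace_injOn h2 G hss b hbspan ((hGf g).mp hg.1) ((hGf g').mp hg'.1)
      intro x hx
      exact congrFun hΦ ⟨x, (hbf x).mpr hx⟩
    calc H'.card ≤ (Fintype.piFinset (fun _ : bf => T)).card :=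
          Finset.card_le_card_of_injOn Φ hmaps hinjOn
      _ = T.card ^ bf.card := by
          rw [Fintype.card_piFinset]
          simp
  -- arithmetic
  have hHsub : H ⊆ Gf := fun h hh => (hGf h).mpr (hHG h hh)
  have hH'sub : H' ⊆ Gf := Finset.filter_subset _ _
  have e1 : (Gf \ H).card + H.card = Gf.card := Finset.card_sdiff_add_card_eq_card hHsub
  have e2 : (Gf \ H').card + H'.card = Gf.card := Finset.card_sdiff_add_card_eq_card hH'sub
  have e1' : ((Gf \ H).card : ℝ) + (H.card : ℝ) = (Gf.card : ℝ) := by exact_mod_cast e1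
  have e2' : ((Gf \ H').card : ℝ) + (H'.card : ℝ) = (Gf.card : ℝ) := by exact_mod_cast e2
  have hcompl' : ((Gf \ H').card : ℝ) ≤ (bf.card : ℝ) * ((Gf \ H).card : ℝ) := by
    exact_mod_cast hcompl
  have hinj' : (H'.card : ℝ) ≤ ((max T.card 1 : ℕ) : ℝ) ^ 4 := by
    have h1 : T.card ^ bf.card ≤ (max T.card 1) ^ 4 :=
      le_trans (Nat.pow_le_pow_left (le_max_left _ _) _)
        (Nat.pow_le_pow_right (lt_of_lt_of_le Nat.one_pos (le_max_right _ _)) hbcard)
    exact_mod_cast le_trans hinj h1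
  rw [hcardG] at hH ⊢
  have hd : ((bf.card : ℕ) : ℝ) ≤ 4 := by exact_mod_cast hbcard
  have hGH : ((Gf \ H).card : ℝ) ≤ η * (Gf.card : ℝ) := by linarith
  have hnn : (0 : ℝ) ≤ ((Gf \ H).card : ℝ) := Nat.cast_nonneg _
  have hnn' : (0 : ℝ) ≤ (bf.card : ℝ) := Nat.cast_nonneg _
  have hprod : (bf.card : ℝ) * ((Gf \ H).card : ℝ) ≤ 4 * (η * (Gf.card : ℝ)) := by
    calc (bf.card : ℝ) * ((Gf \ H).card : ℝ) ≤ 4 * ((Gf \ H).card : ℝ) :=
          mul_le_mul_of_nonneg_right hd hnn
      _ ≤ 4 * (η * (Gf.card : ℝ)) := by linarith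
  linarith

/-- Explicit bound on the order: `|G| ≤ max(|T|, 1)⁴ / (1 - 4 η)` for `η < 1/4`. -/
theorem ds_card_le (h2 : (2 : k) ≠ 0) (G : Subgroup (GL (Fin 2) k)) [Finite G]
    (hss : DSSemisimple (dsMatSet G)) (T : Finset k) (H : Finset (GL (Fin 2) k))
    (hHG : ∀ h ∈ H, h ∈ G)
    (hHT : ∀ h ∈ H, ((h : GL (Fin 2) k) : Matrix (Fin 2) (Fin 2) k).trace ∈ T)
    (η : ℝ) (hη : η < 1 / 4) (hH : (1 - η) * (Nat.card G : ℝ) ≤ (H.card : ℝ)) :
    (Nat.card G : ℝ) ≤ ((max T.card 1 : ℕ) : ℝ) ^ 4 / (1 - 4 * η) := by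
  have h := ds_bound h2 G hss T H hHG hHT η hH
  have hpos : (0 : ℝ) < 1 - 4 * η := by linarith
  rw [le_div_iff₀ hpos]
  linarith

/-- The statement of block (5b) of P-DS as a `Prop` (Deligne–Serre, Prop. 7.2): for every bound
`M` on the number of traces and every `η < 1/4` there is a bound `A` on the order of all finite
semisimple subgroups of `GL₂(k)`, for all fields `k` of characteristic `≠ 2` at once. -/
def DSBoundStatement : Prop :=
  ∀ (M : ℕ) (η : ℝ), η < 1 / 4 → ∃ A : ℕ, ∀ (k : Type) [Field k], (2 : k) ≠ 0 →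
    ∀ (G : Subgroup (GL (Fin 2) k)) [Finite G], DSSemisimple (dsMatSet G) →
    ∀ (T : Finset k) (H : Finset (GL (Fin 2) k)), T.card ≤ M → (∀ h ∈ H, h ∈ G) →
      (∀ h ∈ H, ((h : GL (Fin 2) k) : Matrix (Fin 2) (Fin 2) k).trace ∈ T) →
      (1 - η) * (Nat.card G : ℝ) ≤ (H.card : ℝ) → Nat.card G ≤ A

theorem dsBoundStatement : DSBoundStatement := by
  intro M η hη
  refine ⟨⌊((max M 1 : ℕ) : ℝ) ^ 4 / (1 - 4 * η)⌋₊, ?_⟩
  intro k _ h2 G _ hss T H hTM hHG hHT hH
  have h := ds_card_le h2 G hss T H hHG hHT η hη hH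
  have hpos : (0 : ℝ) < 1 - 4 * η := by linarith
  apply Nat.le_floor
  refine le_trans h ?_
  apply div_le_div_of_nonneg_right _ hpos.le
  have : max T.card 1 ≤ max M 1 := max_le_max hTM le_rfl
  have h' : ((max T.card 1 : ℕ) : ℝ) ≤ ((max M 1 : ℕ) : ℝ) := by exact_mod_cast this
  exact pow_le_pow_left₀ (Nat.cast_nonneg _) h' 4

end counting

end Fermat.Agent.H10
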