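import Mathlib
import Fermat.Agent.H19.Coset

/-!
# P-DIM / DIM-VDM: `μ` modular forms with independent coset vectors at a point (Vandermonde)
-/

set_option autoImplicit false

namespace Fermat.Agent.H10

open UpperHalfPlane ModularForm CongruenceSubgroup Fermat.Agent.H19
open scoped MatrixGroups Manifold Topology

/-- Slash of a power by an element of `SL(2, ℤ)`. -/
lemma pow_slash_SL2 (k : ℤ) (n : ℕ) (f : ℍ → ℂ) (γ : SL(2, ℤ)) :
    (f ^ n) ∣[(n : ℤ) * k] γ = (f ∣[k] γ) ^ n := by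
  ext τ
  simp only [SL_slash_apply, Pi.pow_apply, mul_pow]
  congr 1
  rw [← zpow_natCast, ← zpow_mul]
  congr 1
  ring

lemma cosetFun_pow (N : ℕ) (k : ℤ) (n : ℕ) (f : ℍ → ℂ) (q : Q N) :
    cosetFun N ((n : ℤ) * k) (f ^ n) q = (cosetFun N k f q) ^ n := by
  unfold cosetFun
  exact pow_slash_SL2 k n f _

/-- A bundled modular form on `Γ₀(N)` satisfies the predicate `IsMF`. -/
lemma isMF_of_modularForm (N : ℕ) [NeZero N] (k : ℤ) (F : ModularForm (Gamma0 N) k) :
    IsMF N k ⇑F where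
  holo := F.holo'
  inv γ hγ := by
    have := F.slash_action_eq' (γ : GL (Fin 2) ℝ) ⟨γ, hγ, rfl⟩
    simpa [SL_slash] using this
  bdd g := ModularFormClass.bdd_at_infty_slash F g

/-- Finitely many pairwise distinct holomorphic functions on `ℍ` take pairwise distinct values
at some point. -/
lemma exists_point_injective {ι : Type*} [Finite ι] (G : ι → ℍ → ℂ) (hG : ∀ i, MDiff (G i))
    (hinj : Function.Injective G) : ∃ z : ℍ, Function.Injective (fun i => G i z) := by
  classical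
  have := Fintype.ofFinite ι
  set U : Set ℂ := {z | 0 < z.im} with hU
  have hUo : IsOpen U := isOpen_upperHalfPlaneSet
  have hUc : IsPreconnected U := (convex_halfSpace_im_gt 0).isPreconnected
  have hana : ∀ i, AnalyticOnNhd ℂ (G i ∘ ofComplex) U := fun i =>
    (UpperHalfPlane.mdifferentiable_iff.mp (hG i)).analyticOnNhd hUo
  have hI : (Complex.I : ℂ) ∈ U := by simp [hU]
  -- for each pair of distinct indices, the functions differ near `I` (punctured)
  have hpair : ∀ p : ι × ι, p.1 ≠ p.2 →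
      ∀ᶠ z in 𝓝[≠] (Complex.I : ℂ), (G p.1 ∘ ofComplex) z ≠ (G p.2 ∘ ofComplex) z := by
    rintro ⟨i, j⟩ hij
    by_contra hcon
    have hfreq : ∃ᶠ z in 𝓝[≠] (Complex.I : ℂ), (G i ∘ ofComplex) z = (G j ∘ ofComplex) z :=
      (Filter.not_eventually.mp hcon).mono fun z hz => not_not.mp hz
    have heq := (hana i).eqOn_of_preconnected_of_frequently_eq (hana j) hUc hI hfreq
    apply hij
    apply hinj
    funext τ
    have := heq (show (τ : ℂ) ∈ U from τ.im_pos)
    simpa using this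
  have hall : ∀ᶠ z in 𝓝[≠] (Complex.I : ℂ), ∀ p : ι × ι, p.1 ≠ p.2 →
      (G p.1 ∘ ofComplex) z ≠ (G p.2 ∘ ofComplex) z := by
    rw [Filter.eventually_all]
    intro p
    by_cases hp : p.1 = p.2
    · exact Filter.Eventually.of_forall fun z h => absurd hp h
    · exact (hpair p hp).mono fun z hz _ => hz
  have hmem : ∀ᶠ z in 𝓝[≠] (Complex.I : ℂ), z ∈ U :=
    nhdsWithin_le_nhds (hUo.mem_nhds hI)
  obtain ⟨z, hz, hzU⟩ := (hall.and hmem).exists
  refine ⟨⟨z, hzU⟩, fun i j hij => ?_⟩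
  by_contra hne
  apply hz (i, j) hne
  simpa [ofComplex_apply_of_im_pos hzU] using hij

/-- DIM-VDM. -/
theorem exists_independent_point (N : ℕ) [NeZero N]
    (hsep : ∃ (k : ℤ) (F : ModularForm (Gamma0 N) k),
      ∀ γ : SL(2, ℤ), (⇑F ∣[k] γ = ⇑F) → γ ∈ Gamma0 N) :
    ∃ (K : Q N → ℤ) (H : Q N → ℍ → ℂ) (z₁ : ℍ), (∀ i, IsMF N (K i) (H i)) ∧
      (Matrix.of fun q i => cosetFun N (K i) (H i) q z₁ : Matrix (Q N) (Q N) ℂ).det ≠ 0 := by
  classical
  obtain ⟨k, F, hF⟩ := hsep
  have hFmf : IsMF N k ⇑F := isMF_of_modularForm N k F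
  -- the coset functions are pairwise distinct
  have hinj : Function.Injective (cosetFun N k ⇑F) := by
    intro q q' h
    have h1 : (⇑F ∣[k] (Quotient.out q)⁻¹) ∣[k] (Quotient.out q') = ⇑F := by
      have : (⇑F ∣[k] (Quotient.out q)⁻¹) = (⇑F ∣[k] (Quotient.out q')⁻¹) := h
      rw [this, ← SlashAction.slash_mul, inv_mul_cancel, SlashAction.slash_one]
    rw [← SlashAction.slash_mul] at h1
    have hmem := hF _ h1
    have : ((Quotient.out q : SL(2, ℤ)) : Q N) = ((Quotient.out q' : SL(2, ℤ)) : Q N) :=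
      QuotientGroup.eq.mpr hmem
    simpa using this
  obtain ⟨z₁, hz₁⟩ := exists_point_injective (cosetFun N k ⇑F)
    (fun q => hFmf.cosetFun_mdiff q) hinj
  let e : Q N ≃ Fin (Fintype.card (Q N)) := Fintype.equivFin (Q N)
  refine ⟨fun i => ((e i : ℕ) : ℤ) * k, fun i => ⇑F ^ (e i : ℕ), z₁, fun i => ?_, ?_⟩
  · have := isMF_of_modularForm N _ (F.pow (e i : ℕ))
    rwa [ModularForm.coe_pow] at this
  · have hM : (Matrix.of fun q i => cosetFun N (((e i : ℕ) : ℤ) * k) (⇑F ^ (e i : ℕ)) q z₁ :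
        Matrix (Q N) (Q N) ℂ) =
        (Matrix.vandermonde (fun a => cosetFun N k ⇑F (e.symm a) z₁)).submatrix e e := by
      ext q i
      simp [cosetFun_pow, Matrix.vandermonde_apply]
    rw [hM, Matrix.det_submatrix_equiv_self, Matrix.det_vandermonde_ne_zero_iff]
    intro a b hab
    have := hz₁ hab
    exact e.symm.injective this

end Fermat.Agent.H10
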