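/-
P-ES / block ES-B, row ESB-7 (helper10): `ExistsBStatement`.

For every divisor `D'` of `FK` there is an effective divisor `B` of `Fk` with
`L(D' + bc_* B) ≠ 0`.  With `X := bc x` one takes `f := ∏_Q g_Q ^ n_Q` over the places `Q` with
`D' Q < 0`, where `g_Q = X - c_Q` (`c_Q` the residue of `X` at `Q`) or `g_Q = X⁻¹` (at the poles
of `X`), and `B := n • |div x|`.
-/
import Mathlib
import Fermat.Agent.H29.ESB.Interfaces
import Fermat.Agent.H29.ResidueConst
import Fermat.Agent.H23.PlaceBasic
import Fermat.Agent.H58.RR.CharZero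

set_option autoImplicit false

noncomputable section

open AlgebraicCurve IntermediateField

namespace Fermat.Agent.H10

section onefield

variable {K F : Type} [Field K] [Field F] [Algebra K F]

/-- Lower bound for the order of `X - c`, `c` a constant. -/
theorem esb7_ord_sub_const_ge (w : Place K F) (X : F) (c : K)
    (h : X - algebraMap K F c ≠ 0) : -|w.ord X| ≤ w.ord (X - algebraMap K F c) := by
  have h' : X + -algebraMap K F c ≠ 0 := by rwa [← sub_eq_add_neg]
  have key := Fermat.Agent.H23.ord_add_ge w (f := X) (g := -algebraMap K F c) h' (-|w.ord X|)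
    (Or.inr (neg_abs_le _)) (Or.inr ?_)
  · rwa [← sub_eq_add_neg] at key
  · rw [Fermat.Agent.H23.ord_neg, Fermat.Agent.H23.ord_algebraMap]
    exact neg_nonpos.mpr (abs_nonneg _)

/-- For every place `Q` there is a nonzero `g` with `ord_Q g ≥ 1` and `ord_w g ≥ -|ord_w X|` at
every place `w`. -/
theorem esb7_local [IsAlgClosed K] (X : F) (hX : Transcendental K X)
    [Algebra.IsAlgebraic K⟮X⟯ F] (Q : Place K F) :
    ∃ g : F, g ≠ 0 ∧ 1 ≤ Q.ord g ∧ ∀ w : Place K F, -|w.ord X| ≤ w.ord g := by
  by_cases hQ : 0 ≤ Q.ord X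
  · obtain ⟨c, hc⟩ := Fermat.Agent.H29.place_exists_const_sub (y := X) Q
      (Fermat.Agent.H23.mem_of_ord_nonneg Q hQ)
    have hne : X - algebraMap K F c ≠ 0 := by
      intro h
      apply hX
      rw [sub_eq_zero] at h
      rw [h]
      exact isAlgebraic_algebraMap c
    rcases hc with hc | hc
    · exact absurd (sub_eq_zero.mpr hc) hne
    · exact ⟨X - algebraMap K F c, hne, hc, fun w => esb7_ord_sub_const_ge w X c hne⟩
  · have hX0 : X ≠ 0 := by
      intro h
      apply hX
      rw [h]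
      exact isAlgebraic_zero
    refine ⟨X⁻¹, inv_ne_zero hX0, ?_, fun w => ?_⟩
    · rw [Place.ord_inv]
      omega
    · rw [Place.ord_inv]
      exact neg_le_neg (le_abs_self _)

/-- The global function: prescribed zeros of order `m w` on a finite set `T`, poles bounded by a
multiple of `|div X|`. -/
theorem esb7_global [IsAlgClosed K] (X : F) (hX : Transcendental K X)
    [Algebra.IsAlgebraic K⟮X⟯ F] (T : Finset (Place K F)) (m : Place K F → ℕ) :
    ∃ (f : F) (n : ℕ), f ≠ 0 ∧ ∀ w : Place K F,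
      -((n : ℤ) * |w.ord X|) ≤ w.ord f ∧
      (w ∈ T → (m w : ℤ) - (n : ℤ) * |w.ord X| ≤ w.ord f) := by
  classical
  induction T using Finset.induction_on with
  | empty => exact ⟨1, 0, one_ne_zero, fun w => by simp⟩
  | insert Q T hQ ih =>
    obtain ⟨f, n, hf, hfw⟩ := ih
    obtain ⟨g, hg, hgQ, hgw⟩ := esb7_local X hX Q
    have hgm : g ^ ((m Q : ℕ) : ℤ) ≠ 0 := zpow_ne_zero _ hg
    refine ⟨f * g ^ ((m Q : ℕ) : ℤ), n + m Q, mul_ne_zero hf hgm, fun w => ?_⟩
    rw [Place.ord_mul w hf hgm, Place.ord_zpow]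
    obtain ⟨h1, h1'⟩ := hfw w
    have h2 := hgw w
    have hm : (0 : ℤ) ≤ (m Q : ℤ) := Nat.cast_nonneg _
    have ha : (0 : ℤ) ≤ |w.ord X| := abs_nonneg _
    have h3 : (0 : ℤ) ≤ (m Q : ℤ) * |w.ord X| := mul_nonneg hm ha
    have h4 : (0 : ℤ) ≤ (m Q : ℤ) * (w.ord g + |w.ord X|) := mul_nonneg hm (by linarith)
    refine ⟨?_, fun hw => ?_⟩
    · push_cast
      nlinarith
    · rcases Finset.mem_insert.mp hw with hwQ | hwT
      · subst hwQ
        have h5 : (0 : ℤ) ≤ (m w : ℤ) * (w.ord g - 1) := mul_nonneg hm (by linarith)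
        push_cast
        nlinarith
      · have := h1' hwT
        push_cast
        nlinarith

end onefield

open Fermat.Agent.H29

/-- **ESB-7** For every divisor `D'` of `FK` there is an effective divisor `B` of `Fk` with
`L(D' + bc_* B) ≠ 0`. -/
theorem esb7_existsB (h2c : PlaceExtUniqueStatement) (h3 : RationalPlaceStatement)
    (_h4 : DivisorBCStatement) : ExistsBStatement := by
  intro k K Fk FK _ _ _ _ _ _ _ _ _ _ E ext hext D'
  classical
  have := E.bcx_fin
  have : Algebra.IsAlgebraic K⟮E.bc E.x⟯ FK := Algebra.IsAlgebraic.of_finite _ _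
  obtain ⟨f, n, hf, hfw⟩ := esb7_global (E.bc E.x) E.bcx_transc D'.support
    (fun w => (-(D' w)).toNat)
  have hx0 : E.x ≠ 0 := by
    intro h
    apply E.x_transc
    rw [h]
    exact isAlgebraic_zero
  -- the divisor `|div x|`
  let B0 : Divisor k Fk := Finsupp.ofSupportFinite (fun v => |v.ord E.x|) (by
    refine (Fermat.Agent.H58.rr_finite_ord_ne_zero k Fk E.x E.x_transc E.x_fin E.x).subset ?_
    intro v hv
    rw [Function.mem_support] at hv
    exact fun h => hv (by rw [h, abs_zero]))
  have hB0 : ∀ v, B0 v = |v.ord E.x| := fun v => rfl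
  have hinj : Function.Injective ext := by
    intro v v' hvv'
    apply Fermat.Agent.H23.place_ext_of_ord
    intro g hg
    rw [← hext v' g, ← hvv', hext v g]
    exact hg
  have hBC : ∀ w : Place K FK, divisorBC ext B0 w = |w.ord (E.bc E.x)| := by
    intro w
    by_cases hw : w ∈ Set.range ext
    · obtain ⟨v, rfl⟩ := hw
      show (Finsupp.mapDomain ext B0) (ext v) = _
      rw [Finsupp.mapDomain_apply hinj, hB0, hext]
    · show (Finsupp.mapDomain ext B0) w = _
      rw [Finsupp.mapDomain_of_notMem_range _ _ hw]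
      have h0 : w.ord (E.bc E.x) = 0 := by
        by_contra hne
        obtain ⟨v, hv⟩ := h3 k K Fk FK E w ⟨E.x, hx0, hne⟩
        exact hw ⟨v, h2c k K Fk FK E v (ext v) w (hext v) hv⟩
      rw [h0, abs_zero]
  refine ⟨n • B0, ?_, f, hf, ?_⟩
  · intro v
    rw [Finsupp.smul_apply, hB0]
    exact smul_nonneg (Nat.zero_le n) (abs_nonneg _)
  · rw [mem_riemannRochSpace_iff]
    intro w
    right
    rw [map_nsmul, Finsupp.add_apply, Finsupp.smul_apply, hBC w, nsmul_eq_mul]
    obtain ⟨h1, h1'⟩ := hfw w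
    by_cases hwT : w ∈ D'.support
    · have h1'' := h1' hwT
      have h2 : -(D' w) ≤ ((-(D' w)).toNat : ℤ) := Int.self_le_toNat _
      linarith
    · have h2 : D' w = 0 := by simpa using hwT
      rw [h2]
      linarith

end Fermat.Agent.H10
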