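/-
P-S16, row TRICK-1 (helper10): the weight-4 trace identity
`(p + 1) a₀ b₁ = - ∑_{i=1}^{p-1} a_{pi} b_{p(p-i)}` for `H ∈ M₂(Γ₀(p))`, `f ∈ S₂(Γ₀(p))`.

Route: for a form `G` of weight `k` on `Γ₀(p)` the function `Ψ_k(G) = (G ∣ S) ∣ diag(p,1) + U_p G`
is a level-one form of weight `k` (same computation as helper98's weight-2 case in
`Fermat.Agent.H98.S16_Fricke`).  For `k = 4`, `G = H f` one gets
`Ψ₄(H f) = p (U_p H)(U_p f) + U_p (H f)`, a level-one form of weight 4 with vanishing constant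
term, hence zero (Sturm).  Applied to `(U_p H, U_p f)` and combined with `U_p² = 1`
(Fricke is an involution) this is the claimed identity.
-/
import Mathlib
import Fermat.Agent.H98.S16_Fricke
import Fermat.Agent.H20.S16.Interfaces

set_option autoImplicit false

namespace Fermat.Agent.H10

open UpperHalfPlane CongruenceSubgroup ModularForm
open scoped MatrixGroups ModularForm Real Manifold
open Fermat.Agent.H98

noncomputable section

variable {p : ℕ}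

/-! ### The level-one form `Ψ_k(G) = (G ∣ S D) + U_p G` in weight `k` -/

/-- Invariance of a weight-`k` form on `Γ₀(p)` under an element of `Γ₀(p)`. -/
theorem t1_slash_Gamma0 {k : ℤ} (G : ModularForm (Gamma0 p) k) (γ : SL(2, ℤ))
    (hγ : γ ∈ Gamma0 p) : (⇑G) ∣[k] (γ : GL (Fin 2) ℝ) = ⇑G :=
  SlashInvariantFormClass.slash_action_eq G _ (Subgroup.mem_map_of_mem _ hγ)

/-- The weight-`k` Fricke translate `(G ∣ S) ∣ diag(p,1)`. -/
def t1_fricke (k : ℤ) (p : ℕ) (G : ℍ → ℂ) : ℍ → ℂ :=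
  (G ∣[k] s16_S) ∣[k] heckeDiagMatrix p

theorem t1_fricke_eq (k : ℤ) (p : ℕ) (G : ℍ → ℂ) :
    t1_fricke k p G = G ∣[k] (s16_S * heckeDiagMatrix p) := by
  rw [t1_fricke, SlashAction.slash_mul]

/-- `Ψ_k(G) = (G ∣ S) ∣ diag(p,1) + U_p G`. -/
def t1_Psi (k : ℤ) (p : ℕ) (G : ℍ → ℂ) : ℍ → ℂ := t1_fricke k p G + heckeU k p G

theorem t1_Psi_slash_T {k : ℤ} (hp : p ≠ 0) (G : ModularForm (Gamma0 p) k) :
    (t1_Psi k p ⇑G) ∣[k] (ModularGroup.T : SL(2, ℤ)) = t1_Psi k p ⇑G := by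
  rw [SL_slash, t1_Psi, SlashAction.add_slash]
  congr 1
  · rw [t1_fricke_eq, ← SlashAction.slash_mul, s16_SD_mul_T hp, SlashAction.slash_mul,
      t1_slash_Gamma0 G _ (s16_mkSL_mem_Gamma0 p _ _ _ _ _ (by simp))]
  · exact heckeU_slash_eq_self_of_mem_Gamma0 k (dvd_refl p)
      (fun γ hγ => SlashInvariantFormClass.slash_action_eq G γ hγ) _
      (Subgroup.mem_map_of_mem _ (s16_T_mem_Gamma0 p))

theorem t1_Psi_slash_S {k : ℤ} [Fact p.Prime] (G : ModularForm (Gamma0 p) k) :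
    (t1_Psi k p ⇑G) ∣[k] (ModularGroup.S : SL(2, ℤ)) = t1_Psi k p ⇑G := by
  have hp : p ≠ 0 := (Fact.out : p.Prime).ne_zero
  have hpos : 0 < p := Nat.pos_of_ne_zero hp
  have h1 : (t1_fricke k p ⇑G) ∣[k] s16_S = ⇑G ∣[k] heckeMatrix p 0 := by
    rw [t1_fricke_eq, ← SlashAction.slash_mul, s16_SD_mul_S hp, SlashAction.slash_mul,
      t1_slash_Gamma0 G _ (s16_mkSL_mem_Gamma0 p _ _ _ _ _ (by simp))]
  have h2 : (⇑G ∣[k] heckeMatrix p 0) ∣[k] s16_S = t1_fricke k p ⇑G := by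
    rw [← SlashAction.slash_mul, s16_g0_mul_S hp, t1_fricke_eq]
  have h3 : ∀ j ∈ Finset.Ico 1 p, (⇑G ∣[k] heckeMatrix p j) ∣[k] s16_S =
      ⇑G ∣[k] heckeMatrix p (s16_inv p j) := by
    intro j hj
    obtain ⟨m, hm⟩ := s16_inv_dvd hj
    rw [← SlashAction.slash_mul, s16_gj_mul_S hp j (s16_inv p j) m hm.symm,
      SlashAction.slash_mul, t1_slash_Gamma0 G _ (s16_mkSL_mem_Gamma0 p _ _ _ _ _ (by simp))]
  have hsplit : ∀ F : ℕ → (ℍ → ℂ), ∑ j ∈ Finset.range p, F j = F 0 + ∑ j ∈ Finset.Ico 1 p, F j := by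
    intro F
    rw [Finset.range_eq_Ico, Finset.sum_eq_sum_Ico_succ_bot hpos]
  change (t1_Psi k p ⇑G) ∣[k] ((ModularGroup.S : SL(2, ℤ)) : GL (Fin 2) ℝ) = _
  change (t1_Psi k p ⇑G) ∣[k] s16_S = _
  rw [t1_Psi, SlashAction.add_slash, h1, heckeU_def, SlashAction.sum_slash, hsplit, hsplit, h2,
    Finset.sum_congr rfl h3, s16_sum_inv (fun j => ⇑G ∣[k] heckeMatrix p j)]
  abel

theorem t1_Psi_mdiff {k : ℤ} (G : ModularForm (Gamma0 p) k) : MDiff (t1_Psi k p ⇑G) := by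
  refine MDifferentiable.add ?_ (mdifferentiable_heckeU (ModularFormClass.holo G) k p)
  exact ((ModularFormClass.holo G).slash k s16_S).slash k (heckeDiagMatrix p)

theorem t1_fricke_apply (k : ℤ) (hp : p ≠ 0) (G : ℍ → ℂ) (w : ℍ) :
    t1_fricke k p G w = (p : ℂ) ^ (k - 1) * (G ∣[k] s16_S) (heckeDiagMatrix p • w) := by
  rw [t1_fricke, slash_heckeDiagMatrix_apply k hp]

theorem t1_fricke_bdd {k : ℤ} [NeZero p] (G : ModularForm (Gamma0 p) k) :
    IsBoundedAtImInfty (t1_fricke k p ⇑G) := by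
  have hp : p ≠ 0 := NeZero.ne p
  have h1 : IsBoundedAtImInfty (⇑G ∣[k] s16_S) := by
    have := ModularFormClass.bdd_at_infty_slash G (ModularGroup.S : SL(2, ℤ))
    rwa [SL_slash] at this
  rw [isBoundedAtImInfty_iff] at h1 ⊢
  obtain ⟨M, A, hMA⟩ := h1
  refine ⟨‖(p : ℂ) ^ (k - 1)‖ * M, A, fun z hz => ?_⟩
  rw [t1_fricke_apply k hp, norm_mul]
  refine mul_le_mul_of_nonneg_left (hMA _ ?_) (norm_nonneg _)
  rw [s16_im_diag_smul hp]
  have h1p : (1 : ℝ) ≤ p := by exact_mod_cast Nat.one_le_iff_ne_zero.mpr hp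
  have hz0 : 0 < z.im := z.im_pos
  nlinarith

theorem t1_heckeU_bdd {k : ℤ} [NeZero p] (G : ModularForm (Gamma0 p) k) :
    IsBoundedAtImInfty (heckeU k p ⇑G) :=
  ModularFormClass.bdd_at_infty (heckeULin k (dvd_refl p) G)

theorem t1_Psi_bdd {k : ℤ} [NeZero p] (G : ModularForm (Gamma0 p) k) :
    IsBoundedAtImInfty (t1_Psi k p ⇑G) :=
  (t1_fricke_bdd G).add (t1_heckeU_bdd G)

/-- `Ψ_k(G)` as a level-one modular form of weight `k`. -/
def t1_PsiForm {k : ℤ} [Fact p.Prime] (G : ModularForm (Gamma0 p) k) : ModularForm 𝒮ℒ k :=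
  haveI : NeZero p := ⟨(Fact.out : p.Prime).ne_zero⟩
  have hinv : ∀ γ : SL(2, ℤ), (t1_Psi k p ⇑G) ∣[k] γ = t1_Psi k p ⇑G :=
    SlashInvariantForm.slash_action_generators_SL2Z (t1_Psi_slash_S G)
      (t1_Psi_slash_T (Fact.out : p.Prime).ne_zero G)
  { toFun := t1_Psi k p ⇑G
    slash_action_eq' := by
      rintro γ ⟨γ', rfl⟩
      exact hinv γ'
    holo' := t1_Psi_mdiff G
    bdd_at_cusps' := by
      intro c hc
      rw [OnePoint.isBoundedAt_iff_forall_SL2Z hc]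
      intro γ _
      rw [hinv γ]
      exact t1_Psi_bdd G }

theorem t1_PsiForm_coe {k : ℤ} [Fact p.Prime] (G : ModularForm (Gamma0 p) k) :
    ⇑(t1_PsiForm G) = t1_Psi k p ⇑G := rfl

/-! ### Weight 4: `Ψ₄(H f) = p (U_p H)(U_p f) + U_p(H f)` -/

theorem t1_coeff_heckeU {k : ℤ} [Fact p.Prime] (G : ModularForm (Gamma0 p) k) (n : ℕ) :
    PowerSeries.coeff n (qExpansion 1 (⇑(heckeULin k (dvd_refl p) G))) =
      PowerSeries.coeff (p * n) (qExpansion 1 (⇑G)) := by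
  have hp : p ≠ 0 := (Fact.out : p.Prime).ne_zero
  have : NeZero p := ⟨hp⟩
  have hΓ := CongruenceSubgroup.one_mem_strictPeriods_Gamma0 p
  have := ModularFormClass.qCoeff_heckeU G hΓ hp n
  rw [coeffHeckeU_apply, mul_comm n p] at this
  exact this

theorem t1_Psi_four [Fact p.Prime] (H f : ModularForm (Gamma0 p) 2) (w : ℍ) :
    t1_Psi (2 + 2) p ⇑(H.mul f) w =
      (p : ℂ) * (heckeU 2 p ⇑H w * heckeU 2 p ⇑f w) + heckeU (2 + 2) p ⇑(H.mul f) w := by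
  have hp : p ≠ 0 := (Fact.out : p.Prime).ne_zero
  have hpc : (p : ℂ) ≠ 0 := by exact_mod_cast hp
  rw [t1_Psi, Pi.add_apply, t1_fricke_apply _ hp]
  congr 1
  have hmul : (⇑(H.mul f) ∣[(2 + 2 : ℤ)] s16_S) =
      (⇑H ∣[(2 : ℤ)] s16_S) * (⇑f ∣[(2 : ℤ)] s16_S) := by
    have h := ModularForm.mul_slash_SL2 2 2 ModularGroup.S ⇑H ⇑f
    rw [SL_slash, SL_slash, SL_slash] at h
    exact h
  rw [hmul, Pi.mul_apply, s16_slash_S_apply H, s16_slash_S_apply f]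
  have h3 : (p : ℂ) ^ ((2 : ℤ) + 2 - 1) = (p : ℂ) ^ 3 := by
    norm_num
  rw [h3]
  field_simp

/-- The form `p (U_p H)(U_p f) + U_p(H f)` on `Γ₀(p)`, of weight `2 + 2`. -/
def t1_P [Fact p.Prime] (H f : ModularForm (Gamma0 p) 2) : ModularForm (Gamma0 p) (2 + 2) :=
  haveI : NeZero p := ⟨(Fact.out : p.Prime).ne_zero⟩
  (p : ℂ) • ((heckeULin 2 (dvd_refl p) H).mul (heckeULin 2 (dvd_refl p) f)) +
    heckeULin (2 + 2) (dvd_refl p) (H.mul f)

theorem t1_P_coe [Fact p.Prime] (H f : ModularForm (Gamma0 p) 2) :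
    ⇑(t1_P H f) = ⇑(t1_PsiForm (H.mul f)) := by
  funext w
  rw [t1_PsiForm_coe, t1_Psi_four]
  rfl

theorem t1_qExpansion_P [Fact p.Prime] (H f : ModularForm (Gamma0 p) 2) :
    qExpansion 1 ⇑(t1_P H f) =
      (p : ℂ) • (qExpansion 1 ⇑(heckeULin 2 (dvd_refl p) H) *
          qExpansion 1 ⇑(heckeULin 2 (dvd_refl p) f)) +
        qExpansion 1 ⇑(heckeULin (2 + 2) (dvd_refl p) (H.mul f)) := by
  have hp : p ≠ 0 := (Fact.out : p.Prime).ne_zero
  have : NeZero p := ⟨hp⟩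
  have hΓ := CongruenceSubgroup.one_mem_strictPeriods_Gamma0 p
  rw [t1_P, FunLike.coe_add, ModularForm.qExpansion_add one_pos hΓ,
    FunLike.coe_smul, ModularForm.qExpansion_smul one_pos hΓ,
    ModularForm.qExpansion_mul one_pos hΓ]

theorem t1_qExpansion_mul [Fact p.Prime] (H f : ModularForm (Gamma0 p) 2) :
    qExpansion 1 ⇑(H.mul f) = qExpansion 1 ⇑H * qExpansion 1 ⇑f := by
  have hp : p ≠ 0 := (Fact.out : p.Prime).ne_zero
  have : NeZero p := ⟨hp⟩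
  exact ModularForm.qExpansion_mul one_pos (CongruenceSubgroup.one_mem_strictPeriods_Gamma0 p) H f

/-- Coefficients of `p (U_p H)(U_p f) + U_p(H f)`. -/
theorem t1_coeff_P [Fact p.Prime] (H f : ModularForm (Gamma0 p) 2) (n : ℕ) :
    PowerSeries.coeff n (qExpansion 1 ⇑(t1_P H f)) =
      (p : ℂ) * ∑ x ∈ Finset.HasAntidiagonal.antidiagonal n,
          PowerSeries.coeff (p * x.1) (qExpansion 1 ⇑H) *
            PowerSeries.coeff (p * x.2) (qExpansion 1 ⇑f) +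
        ∑ x ∈ Finset.HasAntidiagonal.antidiagonal (p * n),
          PowerSeries.coeff x.1 (qExpansion 1 ⇑H) * PowerSeries.coeff x.2 (qExpansion 1 ⇑f) := by
  rw [t1_qExpansion_P, map_add, PowerSeries.coeff_smul, PowerSeries.coeff_mul, t1_coeff_heckeU,
    t1_qExpansion_mul, PowerSeries.coeff_mul, smul_eq_mul]
  congr 2
  refine Finset.sum_congr rfl fun x _ => ?_
  rw [t1_coeff_heckeU, t1_coeff_heckeU]

theorem t1_PsiForm_eq_zero [Fact p.Prime] (H f : ModularForm (Gamma0 p) 2)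
    (hf0 : PowerSeries.coeff 0 (qExpansion 1 ⇑f) = 0) : t1_PsiForm (H.mul f) = 0 := by
  apply sturm_bound_levelOne
  have h0 : PowerSeries.coeff 0 (qExpansion 1 ⇑(t1_PsiForm (H.mul f))) = 0 := by
    rw [← t1_P_coe, t1_coeff_P]
    simp [hf0]
  have h1 : ((1 : ℕ) : ℕ∞) ≤ (qExpansion 1 ⇑(t1_PsiForm (H.mul f))).order := by
    refine PowerSeries.nat_le_order _ 1 ?_
    intro i hi
    interval_cases i
    exact h0
  refine lt_of_lt_of_le ?_ h1
  norm_num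

/-- **Basic identity**: all coefficients of `p (U_p H)(U_p f) + U_p(H f)` vanish. -/
theorem t1_basic [Fact p.Prime] (H f : ModularForm (Gamma0 p) 2)
    (hf0 : PowerSeries.coeff 0 (qExpansion 1 ⇑f) = 0) (n : ℕ) :
    (p : ℂ) * ∑ x ∈ Finset.HasAntidiagonal.antidiagonal n,
          PowerSeries.coeff (p * x.1) (qExpansion 1 ⇑H) *
            PowerSeries.coeff (p * x.2) (qExpansion 1 ⇑f) +
        ∑ x ∈ Finset.HasAntidiagonal.antidiagonal (p * n),
          PowerSeries.coeff x.1 (qExpansion 1 ⇑H) * PowerSeries.coeff x.2 (qExpansion 1 ⇑f)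
      = 0 := by
  rw [← t1_coeff_P, t1_P_coe, t1_PsiForm_eq_zero H f hf0]
  have : (⇑(0 : ModularForm 𝒮ℒ (2 + 2)) : ℍ → ℂ) = 0 := rfl
  rw [this, qExpansion_zero]
  simp

/-! ### `U_p² = 1` on `M₂(Γ₀(p))` (the Fricke translate is an involution) -/

theorem t1_SD_sq_val (hp : p ≠ 0) :
    (((s16_S * heckeDiagMatrix p) * (s16_S * heckeDiagMatrix p) : GL (Fin 2) ℝ) :
        Matrix (Fin 2) (Fin 2) ℝ) = !![-(p : ℝ), 0; 0, -(p : ℝ)] := by
  rw [Units.val_mul, s16_SD_val hp]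
  ext i j
  fin_cases i <;> fin_cases j <;> simp [Matrix.mul_apply, Fin.sum_univ_two]

theorem t1_slash_scalar (hp : p ≠ 0) (g : GL (Fin 2) ℝ)
    (hg : (g : Matrix (Fin 2) (Fin 2) ℝ) = !![-(p : ℝ), 0; 0, -(p : ℝ)]) (φ : ℍ → ℂ) :
    φ ∣[(2 : ℤ)] g = φ := by
  have hpr : (p : ℝ) ≠ 0 := by exact_mod_cast hp
  have hpc : (p : ℂ) ≠ 0 := by exact_mod_cast hp
  have hdet : (g.det : ℝ) = (p : ℝ) ^ 2 := by
    rw [Matrix.GeneralLinearGroup.val_det_apply, hg, Matrix.det_fin_two_of]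
    ring
  have hdetpos : 0 < (g.det : ℝ) := by
    rw [hdet]
    positivity
  have hσ : UpperHalfPlane.σ g = .refl ℝ ℂ := by
    rw [UpperHalfPlane.σ, if_pos hdetpos]
  funext z
  have hden : denom g z = -(p : ℂ) := by
    simp [UpperHalfPlane.denom, hg]
  have hsmul : g • z = z := by
    apply UpperHalfPlane.ext
    rw [UpperHalfPlane.coe_smul_of_det_pos hdetpos]
    simp only [UpperHalfPlane.num, UpperHalfPlane.denom, hg]
    simp
    field_simp
  rw [ModularForm.slash_apply, hσ, hdet, hden, hsmul]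
  simp only [ContinuousAlgEquiv.refl_apply]
  have h1 : |((p : ℝ) ^ 2)| = (p : ℝ) ^ 2 := abs_of_nonneg (by positivity)
  rw [h1]
  have h2 : (((((p : ℝ) ^ 2 : ℝ)) : ℂ)) ^ ((2 : ℤ) - 1) = (p : ℂ) ^ 2 := by
    push_cast
    norm_num
  have h3 : (-(p : ℂ)) ^ (-(2 : ℤ)) = ((p : ℂ) ^ 2)⁻¹ := by
    rw [zpow_neg]
    congr 1
    rw [show (2 : ℤ) = ((2 : ℕ) : ℤ) by rfl, zpow_natCast]
    ring
  rw [h2, h3]
  field_simp

theorem t1_fricke_fricke (hp : p ≠ 0) (φ : ℍ → ℂ) :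
    s16_fricke p (s16_fricke p φ) = φ := by
  rw [s16_fricke_eq, s16_fricke_eq, ← SlashAction.slash_mul]
  exact t1_slash_scalar hp _ (t1_SD_sq_val hp) φ

theorem t1_fricke_neg (φ : ℍ → ℂ) : s16_fricke p (-φ) = -s16_fricke p φ := by
  rw [s16_fricke, s16_fricke, SlashAction.neg_slash, SlashAction.neg_slash]

/-- `U_p (U_p H) = H` for `H ∈ M₂(Γ₀(p))`. -/
theorem t1_heckeU_heckeU [Fact p.Prime] (H : ModularForm (Gamma0 p) 2) :
    haveI : NeZero p := ⟨(Fact.out : p.Prime).ne_zero⟩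
    heckeULin 2 (dvd_refl p) (heckeULin 2 (dvd_refl p) H) = H := by
  have hp : p ≠ 0 := (Fact.out : p.Prime).ne_zero
  haveI : NeZero p := ⟨hp⟩
  have hK : (⇑(heckeULin 2 (dvd_refl p) H) : ℍ → ℂ) = -s16_fricke p ⇑H := by
    funext w
    rw [Pi.neg_apply, s16_fricke_eq_neg_heckeU H w, neg_neg]
    rfl
  apply DFunLike.ext
  intro w
  have h1 := s16_fricke_eq_neg_heckeU (heckeULin 2 (dvd_refl p) H) w
  rw [hK, t1_fricke_neg, t1_fricke_fricke hp, ← hK] at h1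
  have h2 : (heckeULin 2 (dvd_refl p) (heckeULin 2 (dvd_refl p) H)) w =
      heckeU 2 p ⇑(heckeULin 2 (dvd_refl p) H) w := rfl
  rw [h2]
  rw [Pi.neg_apply] at h1
  exact (neg_injective h1).symm

/-- **(UP²)** `a_{p² n}(H) = a_n(H)` for `H ∈ M₂(Γ₀(p))`. -/
theorem t1_coeff_sq [Fact p.Prime] (H : ModularForm (Gamma0 p) 2) (n : ℕ) :
    PowerSeries.coeff (p * (p * n)) (qExpansion 1 ⇑H) = PowerSeries.coeff n (qExpansion 1 ⇑H) := by
  haveI : NeZero p := ⟨(Fact.out : p.Prime).ne_zero⟩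
  rw [← t1_coeff_heckeU H (p * n), ← t1_coeff_heckeU (heckeULin 2 (dvd_refl p) H) n,
    t1_heckeU_heckeU]

/-- Splitting a sum over the antidiagonal of `p` into the two end terms and the middle. -/
theorem t1_sum_antidiagonal_split (hp : 1 ≤ p) (F : ℕ → ℕ → ℂ) :
    ∑ x ∈ Finset.HasAntidiagonal.antidiagonal p, F x.1 x.2 =
      F 0 p + ∑ i ∈ Finset.Ico 1 p, F i (p - i) + F p 0 := by
  rw [Finset.Nat.sum_antidiagonal_eq_sum_range_succ F p, Finset.sum_range_succ,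
    Finset.range_eq_Ico, Finset.sum_eq_sum_Ico_succ_bot (by omega : 0 < p)]
  simp

/-- **TRICK-1** in terms of complex coefficients. -/
theorem t1_trick_complex [Fact p.Prime] (H f : ModularForm (Gamma0 p) 2)
    (hf0 : PowerSeries.coeff 0 (qExpansion 1 ⇑f) = 0) :
    ((p : ℂ) + 1) * PowerSeries.coeff 0 (qExpansion 1 ⇑H) * PowerSeries.coeff 1 (qExpansion 1 ⇑f)
      = - ∑ i ∈ Finset.Ico 1 p, PowerSeries.coeff (p * i) (qExpansion 1 ⇑H) *
          PowerSeries.coeff (p * (p - i)) (qExpansion 1 ⇑f) := by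
  have hp : p.Prime := Fact.out
  have hf0' : PowerSeries.coeff 0 (qExpansion 1 ⇑(heckeULin 2 (dvd_refl p) f)) = 0 := by
    rw [t1_coeff_heckeU, mul_zero, hf0]
  have h := t1_basic (heckeULin 2 (dvd_refl p) H) (heckeULin 2 (dvd_refl p) f) hf0' 1
  simp only [t1_coeff_heckeU, t1_coeff_sq] at h
  rw [mul_one, Finset.Nat.antidiagonal_succ, Finset.sum_cons,
    t1_sum_antidiagonal_split hp.one_le
      (fun i j => PowerSeries.coeff (p * i) (qExpansion 1 ⇑H) *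
        PowerSeries.coeff (p * j) (qExpansion 1 ⇑f))] at h
  simp only [Finset.Nat.antidiagonal_zero, Finset.map_singleton, Finset.sum_singleton,
    Function.Embedding.prodMap, Function.Embedding.coeFn_mk, Prod.map, Function.Embedding.refl_apply,
    mul_zero, hf0, zero_add] at h
  have hsq : PowerSeries.coeff (p * p) (qExpansion 1 ⇑f) = PowerSeries.coeff 1 (qExpansion 1 ⇑f) := by
    have := t1_coeff_sq f 1
    rwa [mul_one] at this
  rw [hsq] at h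
  linear_combination h

/-- **TRICK-1**: `(p + 1) a₀ b₁ = - ∑_{i=1}^{p-1} a_{pi} b_{p(p-i)}`. -/
theorem trick1 : Fermat.Agent.H20.S16.Trick1Statement := by
  intro p hp H f a b ha hb
  haveI : Fact p.Prime := ⟨hp⟩
  have hΓ := CongruenceSubgroup.one_mem_strictPeriods_Gamma0 p
  have hf0 : PowerSeries.coeff 0 (qExpansion 1 ⇑(CuspForm.toModularFormₗ f)) = 0 :=
    CuspFormClass.qExpansion_coeff_zero f one_pos hΓ
  have h := t1_trick_complex H (CuspForm.toModularFormₗ f) hf0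
  have hcoe : (⇑(CuspForm.toModularFormₗ f) : ℍ → ℂ) = ⇑f := rfl
  rw [hcoe] at h
  simp only [ha, hb] at h
  have h' : ((((p : ℤ) + 1) * a 0 * b 1 : ℤ) : ℂ) =
      ((- ∑ i ∈ Finset.Ico 1 p, a (p * i) * b (p * (p - i)) : ℤ) : ℂ) := by
    push_cast
    exact h
  exact_mod_cast h'

end

end Fermat.Agent.H10
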